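/-
GATE-J / J4-TATE brick (helper93): finite extensions of a complete discrete valuation ring.

The frozen statements S30, S35, S36 end with an existential over a complete DVR `𝒪''` which is a
finite, injective, local extension of a given complete DVR `𝒪'` (characteristic zero, finite residue
field).  This file produces such an `𝒪''` inside any finite extension `K''` of `K = Frac 𝒪'`, namely
the integral closure of `𝒪'` in `K''`, together with every instance binder of the frozen
existential, and the identification `Frac 𝒪'' = K''`.

Only Mathlib and two proved prelude lemmas are used.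
-/
import Mathlib
import Fermat.Prelude.Thm_Algebra_finite_maximalSpectrum_and_bijective_localization_of_module_finite
import Fermat.Prelude.Thm_IsLocalRing_isAdicComplete_of_module_finite

set_option autoImplicit false
set_option linter.style.haveILetI false
set_option linter.unusedSectionVars false

namespace Fermat.Agent.GJ.Ext

open IsLocalRing

/-- A domain which is module-finite over a complete noetherian local ring is a local ring. -/
theorem isLocalRing_of_finite_of_isDomain (𝒪 : Type) [CommRing 𝒪] [IsLocalRing 𝒪]
    [IsNoetherianRing 𝒪] [IsAdicComplete (maximalIdeal 𝒪) 𝒪]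
    (B : Type) [CommRing B] [IsDomain B] [Algebra 𝒪 B] [Module.Finite 𝒪 B] : IsLocalRing B := by
  classical
  obtain ⟨-, hbij, -, -⟩ :=
    Algebra.finite_maximalSpectrum_and_bijective_localization_of_module_finite (𝒪 := 𝒪) B
  haveI : Nonempty (MaximalSpectrum B) := by
    obtain ⟨m, hm⟩ := Ideal.exists_maximal B
    exact ⟨⟨m, hm⟩⟩
  haveI : Subsingleton (MaximalSpectrum B) := by
    refine ⟨fun I J => ?_⟩
    by_contra hIJ
    set f := RingHom.pi fun I : MaximalSpectrum B =>
      algebraMap B (Localization.AtPrime I.asIdeal) with hf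
    obtain ⟨a, ha⟩ := hbij.2 (Pi.single I 1)
    obtain ⟨b, hb⟩ := hbij.2 (Pi.single J 1)
    have hab : f (a * b) = 0 := by
      rw [map_mul, ha, hb]
      funext K
      by_cases hK : K = I
      · subst hK
        simp [Pi.single_eq_of_ne hIJ]
      · simp [Pi.single_eq_of_ne hK]
    have hab0 : a * b = 0 := hbij.1 (by rw [hab, map_zero])
    rcases mul_eq_zero.mp hab0 with h0 | h0
    · have := congrFun ha I
      rw [h0, map_zero] at this
      simp at this
    · have := congrFun hb J
      rw [h0, map_zero] at this
      simp at this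
  exact IsLocalRing.of_singleton_maximalSpectrum

section

variable (𝒪' : Type) [CommRing 𝒪'] [IsDomain 𝒪'] [IsDiscreteValuationRing 𝒪']
  [IsAdicComplete (maximalIdeal 𝒪') 𝒪'] [CharZero 𝒪']
  (K K'' : Type) [Field K] [Algebra 𝒪' K] [IsFractionRing 𝒪' K] [Field K''] [Algebra K K'']
  [FiniteDimensional K K''] [Algebra 𝒪' K''] [IsScalarTower 𝒪' K K'']

include 𝒪' K K''

theorem algebraMap_injective_top : Function.Injective (algebraMap 𝒪' K'') := by
  rw [IsScalarTower.algebraMap_eq 𝒪' K K'']
  exact (algebraMap K K'').injective.comp (IsFractionRing.injective 𝒪' K)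

theorem charZero_top : CharZero K'' :=
  charZero_of_injective_algebraMap (algebraMap_injective_top 𝒪' K K'')

theorem charZero_frac : CharZero K :=
  charZero_of_injective_algebraMap (IsFractionRing.injective 𝒪' K)

theorem isSeparable_top : Algebra.IsSeparable K K'' := by
  haveI := charZero_frac 𝒪' K K''
  exact Algebra.IsSeparable.of_integral K K''

/-- the integral closure is module-finite over `𝒪'`. -/
theorem finite_integralClosure : Module.Finite 𝒪' (integralClosure 𝒪' K'') := by
  haveI := isSeparable_top 𝒪' K K''
  exact IsIntegralClosure.finite 𝒪' K K'' (integralClosure 𝒪' K'')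

theorem injective_algebraMap_integralClosure :
    Function.Injective (algebraMap 𝒪' (integralClosure 𝒪' K'')) := by
  intro a b hab
  apply algebraMap_injective_top 𝒪' K K''
  have := congrArg (algebraMap (integralClosure 𝒪' K'') K'') hab
  rwa [← IsScalarTower.algebraMap_apply, ← IsScalarTower.algebraMap_apply] at this

theorem isDedekindDomain_integralClosure : IsDedekindDomain (integralClosure 𝒪' K'') := by
  haveI := isSeparable_top 𝒪' K K''
  exact integralClosure.isDedekindDomain 𝒪' K K''

theorem isLocalRing_integralClosure : IsLocalRing (integralClosure 𝒪' K'') := by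
  haveI := finite_integralClosure 𝒪' K K''
  exact isLocalRing_of_finite_of_isDomain 𝒪' (integralClosure 𝒪' K'')

theorem not_isField_integralClosure : ¬ IsField (integralClosure 𝒪' K'') := by
  intro hB
  exact IsDiscreteValuationRing.not_isField 𝒪'
    (isField_of_isIntegral_of_isField (injective_algebraMap_integralClosure 𝒪' K K'') hB)

theorem isLocalHom_integralClosure :
    IsLocalHom (algebraMap 𝒪' (integralClosure 𝒪' K'')) :=
  (algebraMap_isIntegral_iff.mpr inferInstance).isLocalHom
    (injective_algebraMap_integralClosure 𝒪' K K'')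

end

/-- **Finite extensions of complete DVRs.**  Every binder of the existential of the frozen
statements S30 / S35 / S36 is provided by the integral closure `𝒪''` of `𝒪'` in a finite extension
`K''` of `K = Frac 𝒪'`; moreover `Frac 𝒪'' = K''`. -/
theorem exists_completeDVR_ext (𝒪' : Type) [CommRing 𝒪'] [IsDomain 𝒪'] [IsDiscreteValuationRing 𝒪']
    [IsAdicComplete (IsLocalRing.maximalIdeal 𝒪') 𝒪'] [Finite (IsLocalRing.ResidueField 𝒪')]
    [CharZero 𝒪']
    (K K'' : Type) [Field K] [Algebra 𝒪' K] [IsFractionRing 𝒪' K] [Field K''] [Algebra K K'']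
    [FiniteDimensional K K''] [Algebra 𝒪' K''] [IsScalarTower 𝒪' K K''] :
    ∃ (𝒪'' : Type) (_ : CommRing 𝒪'') (_ : IsDomain 𝒪'') (_ : IsDiscreteValuationRing 𝒪'')
      (_ : IsAdicComplete (IsLocalRing.maximalIdeal 𝒪'') 𝒪'')
      (_ : Finite (IsLocalRing.ResidueField 𝒪'')) (_ : CharZero 𝒪'')
      (_ : Algebra 𝒪' 𝒪'') (_ : Module.Finite 𝒪' 𝒪'') (_ : IsLocalHom (algebraMap 𝒪' 𝒪''))
      (_ : Algebra 𝒪'' K'') (_ : IsScalarTower 𝒪' 𝒪'' K'') (_ : IsFractionRing 𝒪'' K''),
      Function.Injective (algebraMap 𝒪' 𝒪'') := by
  haveI hfin := finite_integralClosure 𝒪' K K''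
  haveI hded := isDedekindDomain_integralClosure 𝒪' K K''
  haveI hloc := isLocalRing_integralClosure 𝒪' K K''
  haveI hlh := isLocalHom_integralClosure 𝒪' K K''
  haveI hdvr : IsDiscreteValuationRing (integralClosure 𝒪' K'') :=
    ((IsDiscreteValuationRing.TFAE (integralClosure 𝒪' K'')
      (not_isField_integralClosure 𝒪' K K'')).out 0 2).mpr hded
  haveI hcomp : IsAdicComplete (maximalIdeal (integralClosure 𝒪' K'')) (integralClosure 𝒪' K'') :=
    IsLocalRing.isAdicComplete_of_module_finite (𝒪 := 𝒪') (T := integralClosure 𝒪' K'')
  haveI hres : Finite (ResidueField (integralClosure 𝒪' K'')) :=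
    IsLocalRing.ResidueField.finite_of_finite (R := 𝒪') (S := integralClosure 𝒪' K'') inferInstance
  haveI hchar : CharZero (integralClosure 𝒪' K'') :=
    charZero_of_injective_algebraMap (injective_algebraMap_integralClosure 𝒪' K K'')
  exact ⟨integralClosure 𝒪' K'', inferInstance, inferInstance, hdvr, hcomp, hres, hchar,
    inferInstance, hfin, hlh, inferInstance, inferInstance,
    integralClosure.isFractionRing_of_finite_extension K K'',
    injective_algebraMap_integralClosure 𝒪' K K''⟩

end Fermat.Agent.GJ.Ext
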